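import Fermat.Statements.S24
import Fermat.Agent.Lib.Curve.Hurwitz
import Fermat.Agent.Lib.S24.Comb1
import Fermat.Agent.Lib.S24.Comb2
import Fermat.Agent.Lib.S24.Count

set_option autoImplicit false
open ModularCurve AlgebraicCurve KaehlerDifferential
open Fermat.Agent.Curve Fermat.Agent.S24Lib
open Matrix MatrixGroups CongruenceSubgroup

namespace Fermat.Agent.S24

local notation "Kbar" => AlgebraicClosure ℚ

theorem result (N : ℕ) [NeZero N]
    [AlgebraicCurve.HasCanonicalDivisor (K := AlgebraicClosure ℚ) (F := ↥(ModularCurve.modularFunctionFieldBar N))] :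
    (AlgebraicCurve.genus (AlgebraicClosure ℚ) ↥(ModularCurve.modularFunctionFieldBar N) : ℚ)
      = ModularCurve.genusFormula N := by
  classical
  have hx := isFunctionFieldGen_jBar N
  -- a nonzero differential exists
  have hnotK : jBar N ∉ (algebraMap Kbar (modularFunctionFieldBar N)).range := by
    rintro ⟨a, ha⟩
    exact hx.transcendental (ha ▸ isAlgebraic_algebraMap a)
  obtain ⟨v₀⟩ := exists_place hx
  have hex : ∃ ω : Ω[↥(modularFunctionFieldBar N)⁄Kbar], ω ≠ 0 :=
    ⟨_, D_ne_zero_of_place hx v₀ hnotK⟩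
  -- degree of the canonical divisor
  have hdeg := degree_canonical hx ({0, 1728} : Finset Kbar) (by
      intro a ha
      simp only [Finset.mem_insert, Finset.mem_singleton, not_or] at ha
      rw [ncard_zeros_jBar_sub N a ha.1 ha.2, finrank_jBar]) hex.choose hex.choose_spec
    (canonicalDivisorOf hex.choose_spec) (fun v => canonicalDivisorOf_apply hex.choose_spec v)
  have h01728 : (0 : Kbar) ≠ 1728 := by norm_num
  rw [Finset.sum_pair h01728, ncard_zeros_jBar, ncard_zeros_jBar_sub_1728, ncard_poles_jBar,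
    finrank_jBar] at hdeg
  -- combinatorics
  obtain ⟨g, hg⟩ := exists_genus_of_triple (G := SL(2, ℤ)) (X := SL(2, ℤ) ⧸ Gamma0 N)
    ModularGroup.S ModularGroup.T (by
      have h := SpecialLinearGroup.SL2Z_generators
      exact h)
  rw [card_quotient_Gamma0] at hg
  have hS := card_orbits_S N
  have hST := card_orbits_ST N
  have hT := card_orbits_T N
  set oS := Nat.card (MulAction.orbitRel.Quotient (Subgroup.zpowers ModularGroup.S)
      (SL(2, ℤ) ⧸ Gamma0 N)) with hoS
  set oST := Nat.card (MulAction.orbitRel.Quotient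
      (Subgroup.zpowers (ModularGroup.S * ModularGroup.T)) (SL(2, ℤ) ⧸ Gamma0 N)) with hoST
  set oT := Nat.card (MulAction.orbitRel.Quotient (Subgroup.zpowers ModularGroup.T)
      (SL(2, ℤ) ⧸ Gamma0 N)) with hoT
  have hdeg2 : Divisor.degree (canonicalDivisorOf hex.choose_spec) + 2 = 2 * (g : ℤ) := by
    rw [hdeg]
    have : (2 * g + oS + oT + oST : ℤ) = dedekindPsi N + 2 := by exact_mod_cast hg
    linarith
  have hgenus : genus Kbar (modularFunctionFieldBar N) = g := by
    unfold genus
    rw [dif_pos hex, hdeg2]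
    have h2g : (2 * (g : ℤ)).toNat = 2 * g := by omega
    rw [h2g]
    omega
  rw [hgenus, genusFormula, ← hT]
  have h1 : (2 * (oS : ℚ)) = dedekindPsi N + nuTwo N := by exact_mod_cast hS
  have h2 : (3 * (oST : ℚ)) = dedekindPsi N + 2 * nuThree N := by exact_mod_cast hST
  have h3 : (2 * g + oS + oT + oST : ℚ) = dedekindPsi N + 2 := by exact_mod_cast hg
  linarith

end Fermat.Agent.S24
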