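-- Statement S20: dim S₂(Γ₀(N)) = genus formula.
import Fermat.Statements.S20
import Fermat.Agent.Lib.ES.DimLower

set_option autoImplicit false
open CuspForm

namespace Fermat.Agent.S20

theorem result (N : ℕ) [NeZero N] :
    (Module.finrank ℂ (CuspForm (CongruenceSubgroup.Gamma0 N) 2) : ℚ) = ModularCurve.genusFormula N :=
  Fermat.Agent.ES.finrank_cuspForm_eq_of_le N (Fermat.Agent.ES.genusFormula_le_finrank_cuspForm N)

end Fermat.Agent.S20
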