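import Fermat.Statements.S02

set_option autoImplicit false
open FreyPackage

namespace Fermat.Agent.S02

/-- Core case: `gcd a b = 1`, `b` even. Negate if necessary so that `a ≡ 3 mod 4`. -/
theorem nonempty_of_coprime_even {a b c : ℤ} (ha : a ≠ 0) (hb : b ≠ 0) (hc : c ≠ 0) {p : ℕ}
    (pp : p.Prime) (hp5 : 5 ≤ p) (H : a ^ p + b ^ p = c ^ p) (hgcd : gcd a b = 1)
    (hb2 : (2 : ℤ) ∣ b) : Nonempty FreyPackage := by
  have hodd : Odd p := pp.odd_of_ne_two (by omega)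
  have ha_odd : ¬ (2 : ℤ) ∣ a := by
    intro h2a
    have h2 : (2 : ℤ) ∣ gcd a b := dvd_gcd h2a hb2
    rw [hgcd] at h2
    norm_num at h2
  have hb2' : ((b : ℤ) : ZMod 2) = 0 := (ZMod.intCast_zmod_eq_zero_iff_dvd b 2).2 hb2
  have h4 : a % 4 = 1 ∨ a % 4 = 3 := by omega
  rcases h4 with h1 | h3
  · refine ⟨{ a := -a, b := -b, c := -c, ha0 := neg_ne_zero.2 ha, hb0 := neg_ne_zero.2 hb,
              hc0 := neg_ne_zero.2 hc, p := p, pp := pp, hp5 := hp5, hFLT := ?_, hgcdab := ?_,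
              ha4 := ?_, hb2 := ?_ }⟩
    · rw [hodd.neg_pow, hodd.neg_pow, hodd.neg_pow, ← H]; ring
    · rw [gcd_neg, neg_gcd]; exact hgcd
    · have : ((-a : ℤ) : ZMod 4) = ((3 : ℤ) : ZMod 4) := by
        rw [ZMod.intCast_eq_intCast_iff_dvd_sub]
        push_cast
        omega
      simpa using this
    · push_cast
      rw [hb2', neg_zero]
  · refine ⟨{ a := a, b := b, c := c, ha0 := ha, hb0 := hb, hc0 := hc, p := p, pp := pp,
              hp5 := hp5, hFLT := H, hgcdab := hgcd, ha4 := ?_, hb2 := hb2' }⟩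
    have : ((a : ℤ) : ZMod 4) = ((3 : ℤ) : ZMod 4) := by
      rw [ZMod.intCast_eq_intCast_iff_dvd_sub]
      push_cast
      omega
    simpa using this

/-- Coprime case: exactly one of `a`, `b`, `c` is even; move it to the `b` slot. -/
theorem nonempty_of_coprime {a b c : ℤ} (ha : a ≠ 0) (hb : b ≠ 0) (hc : c ≠ 0) {p : ℕ}
    (pp : p.Prime) (hp5 : 5 ≤ p) (H : a ^ p + b ^ p = c ^ p) (hgcd : gcd a b = 1) :
    Nonempty FreyPackage := by
  have hodd : Odd p := pp.odd_of_ne_two (by omega)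
  have hp0 : p ≠ 0 := pp.ne_zero
  by_cases hb2 : (2 : ℤ) ∣ b
  · exact nonempty_of_coprime_even ha hb hc pp hp5 H hgcd hb2
  by_cases ha2 : (2 : ℤ) ∣ a
  · refine nonempty_of_coprime_even hb ha hc pp hp5 (by rw [add_comm]; exact H) ?_ ha2
    rw [gcd_comm]; exact hgcd
  -- both odd, so `c` is even
  have hc2 : (2 : ℤ) ∣ c := by
    have ha' : Odd a := Int.not_even_iff_odd.1 (fun h => ha2 (even_iff_two_dvd.1 h))
    have hb' : Odd b := Int.not_even_iff_odd.1 (fun h => hb2 (even_iff_two_dvd.1 h))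
    have hcp : Even (c ^ p) := by
      rw [← H]; exact (ha'.pow).add_odd (hb'.pow)
    exact even_iff_two_dvd.1 ((Int.even_pow' hp0).1 hcp)
  refine nonempty_of_coprime_even (a := a) (b := -c) (c := -b) ha (neg_ne_zero.2 hc)
    (neg_ne_zero.2 hb) pp hp5 ?_ ?_ ((dvd_neg).2 hc2)
  · rw [hodd.neg_pow, hodd.neg_pow, ← H]; ring
  · rw [gcd_neg, ← FreyPackage.gcdab_eq_gcdac pp.pos H]; exact hgcd

theorem result (a b c : ℤ) (ha : a ≠ 0) (hb : b ≠ 0) (hc : c ≠ 0) (p : ℕ) (pp : p.Prime) (hp5 : 5 ≤ p) (H : a ^ p + b ^ p = c ^ p) : Nonempty FreyPackage := by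
  have hp0 : p ≠ 0 := pp.ne_zero
  have hdpos : 0 < Int.gcd a b := Int.gcd_pos_of_ne_zero_left b ha
  obtain ⟨a', b', hgcd', haa', hbb'⟩ := Int.exists_gcd_one hdpos
  set d : ℤ := (Int.gcd a b : ℤ) with hd
  have hd0 : d ≠ 0 := by
    rw [hd]; exact_mod_cast hdpos.ne'
  have ha'0 : a' ≠ 0 := by
    rintro rfl; apply ha; rw [haa']; ring
  have hb'0 : b' ≠ 0 := by
    rintro rfl; apply hb; rw [hbb']; ring
  -- `d ∣ c`
  have hdc : d ∣ c := by
    rw [← Int.pow_dvd_pow_iff hp0, ← H]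
    apply dvd_add
    · rw [Int.pow_dvd_pow_iff hp0]; exact ⟨a', by rw [mul_comm]; exact haa'⟩
    · rw [Int.pow_dvd_pow_iff hp0]; exact ⟨b', by rw [mul_comm]; exact hbb'⟩
  obtain ⟨c', hcc'⟩ := hdc
  have hc'0 : c' ≠ 0 := by
    rintro rfl; apply hc; rw [hcc']; ring
  have H' : a' ^ p + b' ^ p = c' ^ p := by
    have hdp : d ^ p ≠ 0 := pow_ne_zero p hd0
    apply mul_left_cancel₀ hdp
    calc d ^ p * (a' ^ p + b' ^ p) = (a' * d) ^ p + (b' * d) ^ p := by ring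
      _ = a ^ p + b ^ p := by rw [← haa', ← hbb']
      _ = c ^ p := H
      _ = d ^ p * c' ^ p := by rw [hcc']; ring
  refine nonempty_of_coprime ha'0 hb'0 hc'0 pp hp5 H' ?_
  rw [← Int.coe_gcd, hgcd']; rfl

end Fermat.Agent.S02
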