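-- Statement S05 (row 5): the Frey curve's mod-`p` Galois representation is unramified at odd `q ≠ p`.
import Fermat.Statements.S05
import Fermat.Agent.Lib.S05.Frey
import Fermat.Agent.Lib.S05.QValQbar

set_option autoImplicit false
open WeierstrassCurve WeierstrassCurve.Affine WeierstrassCurve.Affine.Point
open CuspForm ModularFormClass UpperHalfPlane
open FreyPackage

namespace Fermat.Agent.S05

theorem result (P : FreyPackage) {q : ℕ} (hq : q.Prime) (hq2 : q ≠ 2) (hqp : q ≠ P.p) : P.GaloisRepUnramifiedAt q := by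
  intro A hA σ hσ x
  obtain ⟨v, h1, h2, h3, h4, h5⟩ := Fermat.Agent.S05Lib.exists_qval_of_liesOver A hq hA
  exact Fermat.Agent.S05Lib.frey_unramified P hq hq2 hqp ⟨h1, h2, h3, h4, h5⟩ hσ x

end Fermat.Agent.S05
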