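-- Statement S44 (row 38): level lowering at `p` for the Frey curve at a conductor level.
-- Proof: DELTA (team): `Fermat.Agent.Delta.dlw_final` (Lib/Delta/Wire/Final.lean) with the inputs
-- `Fermat.Agent.Delta.dlw_inputs` (Lib/Delta/Wire/Core3.lean).
import Fermat.Statements.S44
import Fermat.Agent.Lib.Delta.Wire.Core3

set_option autoImplicit false
open WeierstrassCurve WeierstrassCurve.Affine WeierstrassCurve.Affine.Point
open CuspForm ModularFormClass UpperHalfPlane
open FreyPackage

namespace Fermat.Agent.S44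

theorem result (P : FreyPackage) {N : ℕ} (hcond : P.IsConductorLevel N) (hpN : P.p ∣ N) (hirr : GaloisRepIsIrreducible (K := AlgebraicClosure ℚ) ℚ P.freyCurve P.p) (hmod : P.ModularRepOfLevel N) : ∃ M : ℕ, M ∣ N ∧ ¬ P.p ∣ M ∧ P.ModularRepOfLevel M :=
  Fermat.Agent.Delta.dlw_final Fermat.Agent.Delta.dlw_inputs P hcond hpN hirr hmod

end Fermat.Agent.S44
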