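-- Statement S30 (the theorem CuspForm.exists_galoisRep_of_point): the Galois representation attached
-- to a point of the Hecke algebra of weight 2 and level `Γ₀(N)`.
-- Assembly: T1-D (dictionary + descent + monodromy package, `tdm_package_of_dict`), T1-K/T1-A/T1-B
-- (K3, unconditional), T1-E (`te_S30_of_package`, `ter_extension`).
import Fermat.Statements.S30
import Fermat.Agent.Lib.T1.Mono.Final
import Fermat.Agent.Lib.T1.Dict.DescentSurj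
import Fermat.Agent.Lib.T1.Asm.S30Skeleton
import Fermat.Agent.Lib.T1.Asm.Res.Extension
import Fermat.Agent.Lib.T1.Kron.K3Bridge
import Fermat.Agent.Lib.T1.S18.AllLevels

set_option autoImplicit false
open Polynomial
open CuspForm

namespace Fermat.Agent.S30

open Fermat.Agent.S24Lib in
/-- the Tate module package of `J₀(N)`, unconditionally -/
theorem s30_package (p : ℕ) [Fact p.Prime] (N : ℕ) [NeZero N] : Fermat.Agent.T1.TePackage p N :=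
  Fermat.Agent.T1.tdm_package_of_dict p N (Fermat.Agent.T1.tddDict (AlgebraicClosure ℚ) N)
    (Fermat.Agent.T1.tddDict_toMer (AlgebraicClosure ℚ) N)
    (Fermat.Agent.T1.tddDictC N (Fermat.Agent.T1.tddDict ℂ N) (Fermat.Agent.T1.tddDict_toMer ℂ N))
    (Fermat.Agent.T1.tddDescent N)
    (Fermat.Agent.T1.tkr_hK3_of_inputs N
      (fun 𝔓 M _ hM H hH => Fermat.Agent.T1.tbq_allLevelsOK 𝔓 M hM H hH)
      (fun 𝔓 M _ hM h49 => Fermat.Agent.T1.tkr_barOK 𝔓 h49 hM) p Fact.out)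

theorem result :
    ∀ (p : ℕ) [Fact p.Prime] (N : ℕ) [NeZero N] (S : Finset ℕ)
      (_hpS : p ∈ S) (_hNS : ∀ q : ℕ, q.Prime → q ∣ N → q ∈ S)
      (𝒪' : Type) [CommRing 𝒪'] [IsDomain 𝒪'] [IsDiscreteValuationRing 𝒪']
      [IsAdicComplete (IsLocalRing.maximalIdeal 𝒪') 𝒪'] [Finite (IsLocalRing.ResidueField 𝒪')]
      [CharZero 𝒪'] (_hp𝒪' : (p : 𝒪') ∈ IsLocalRing.maximalIdeal 𝒪')
      (χ : CuspForm.heckeAlgebra N 2 (↑S : Set ℕ) →+* 𝒪'),
      ∃ (𝒪'' : Type) (_ : CommRing 𝒪'') (_ : IsDomain 𝒪'') (_ : IsDiscreteValuationRing 𝒪'')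
        (_ : IsAdicComplete (IsLocalRing.maximalIdeal 𝒪'') 𝒪'')
        (_ : Finite (IsLocalRing.ResidueField 𝒪'')) (_ : CharZero 𝒪'')
        (_ : Algebra 𝒪' 𝒪'') (_ : Module.Finite 𝒪' 𝒪'') (_ : IsLocalHom (algebraMap 𝒪' 𝒪'')),
      Function.Injective (algebraMap 𝒪' 𝒪'') ∧
      ∃ ρ : GaloisRepAdic 𝒪'',
        (∀ (ℓ : ℕ) (hℓ : ℓ.Prime) (hℓN : ¬ ℓ ∣ N) (hℓS : ℓ ∉ (↑S : Set ℕ)),
          ∀ A : ValuationSubring (AlgebraicClosure ℚ), A.LiesOverPrime ℓ →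
            ∀ σ : AlgebraicClosure ℚ ≃ₐ[ℚ] AlgebraicClosure ℚ, A.IsFrobeniusAt σ ℓ →
              LinearMap.charpoly (ρ.ρ σ) =
                X ^ 2 - C (algebraMap 𝒪' 𝒪'' (χ (CuspForm.heckeAlgebra.T hℓ hℓN hℓS))) * X
                  + C ((ℓ : 𝒪''))) ∧
        (∀ q : ℕ, q.Prime → ¬ q ∣ N → q ≠ p → ρ.IsUnramifiedAt q) := by
  intro p _ N _ S hpS hNS 𝒪' _ _ _ _ _ _ hp𝒪' χ
  exact Fermat.Agent.T1.te_S30_of_package p N S hpS hNS (s30_package p N)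
    (Fermat.Agent.T1.ter_extension p N (↑S : Set ℕ)) 𝒪' hp𝒪' χ

end Fermat.Agent.S30
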