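-- Statement S32 (the theorem CuspForm.HeckeGaloisRepDatum.isFlatAt_of_primeFactors_subset): in a
-- Hecke–Galois datum of level N away from S, with p not dividing N, the Galois representation is
-- flat at p.
-- Assembly (project ALPHA / S32; architect helper3): T is reduced (helper9, `alpz_isReduced`), its
-- finitely many DVR points are jointly injective (helper6, `alpq_exists_points`), at each point the
-- representation is identified by rigidity (helper6, `alpy_rigid_datum`) with the explicit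
-- representation on an eigen-lattice of the Tate module of J₀(N) (helper4, `alpp_emb_point'`), whose
-- quotients have Hopf orders over ℤ_(p) (helper1, `alps_eigen_order`, from `alpm_good`);
-- Artin–Rees endgame (helper3, `s32_isFlatAt_of_emb`).
import Fermat.Statements.S32
import Fermat.Agent.Lib.Alpha.S32.Assemble
import Fermat.Agent.Lib.Alpha.S32.Reduced

set_option autoImplicit false
variable {p : ℕ} {N : ℕ} [NeZero N] {S : Finset ℕ}
  {𝒪 : Type} [CommRing 𝒪] [IsDomain 𝒪] [IsDiscreteValuationRing 𝒪]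
  [IsAdicComplete (IsLocalRing.maximalIdeal 𝒪) 𝒪]
  {θ : CuspForm.heckeAlgebra N 2 (↑S : Set ℕ) →+* IsLocalRing.ResidueField 𝒪}
  {T : Type} [CommRing T] [IsLocalRing T] [IsNoetherianRing T]
  [IsAdicComplete (IsLocalRing.maximalIdeal T) T] [Algebra 𝒪 T] [IsLocalHom (algebraMap 𝒪 T)]
  [Module.Finite 𝒪 T] [Module.Free 𝒪 T]
open CuspForm CuspForm.HeckeGaloisRepDatum

namespace Fermat.Agent.S32

theorem result
    [Finite (IsLocalRing.ResidueField 𝒪)] [CharZero 𝒪]
    (hp : p.Prime) (hp2 : p ≠ 2) (hp𝒪 : (p : 𝒪) ∈ IsLocalRing.maximalIdeal 𝒪) (hpN : ¬ p ∣ N)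
    (hpS : p ∈ S) (hNS : ∀ q : ℕ, q.Prime → q ∣ N → q ∈ S)
    (H : CuspForm.HeckeGaloisRepDatum N (↑S : Set ℕ) 𝒪 θ T) :
    H.ρ.IsFlatAt p :=
  Fermat.Agent.Alpha.alpp_s32_of_reduced hp hp𝒪 hpN hpS hNS H
    (Fermat.Agent.Alpha.alpz_isReduced hNS H)

end Fermat.Agent.S32
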