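-- Statement S33 (the theorem CuspForm.HeckeGaloisRepDatum.isOrdinaryAt_of_primeFactors_subset): in a
-- Hecke–Galois datum of level N away from S, with p ∥ N, p odd and ordinary residual representation,
-- the Galois representation is ordinary at p.
-- Assembly (project GAMMA / S33; architect helper9, wiring helper4): `s33w_main` (pointwise
-- ordinarity at the DVR points of T from (Γ) = `S33Gamma p N`: a connected finite flat subgroup C of
-- J₀(N)[p^∞] over the inertia-fixed field with J[p^∞]/C unramified), and (Γ) = `s33w_gamma_final`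
-- from the two-component model of X₀(N' p) at p: base `s33qBase` + `T2Setup` of the symmetric chart
-- (helper9), the closed fibre as a nodal curve (KM-NOD helper3, RED/DICT helper7), the chart of the
-- Jacobian at one cluster (KEY helper8, CHART helper1), the Kummer bridge and C[p] (F12 helper6),
-- inertia-fixed frames (INV helper5), the pole divisor of the chart (helper2), connectedness
-- (CONN helper1, ZAR helper9).
import Fermat.Statements.S33
import Fermat.Agent.Lib.S33.Wire.Final
import Fermat.Agent.Lib.S33.Wire.Point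

set_option autoImplicit false
variable {p : ℕ} {N : ℕ} [NeZero N] {S : Finset ℕ}
  {𝒪 : Type} [CommRing 𝒪] [IsDomain 𝒪] [IsDiscreteValuationRing 𝒪]
  [IsAdicComplete (IsLocalRing.maximalIdeal 𝒪) 𝒪]
  {θ : CuspForm.heckeAlgebra N 2 (↑S : Set ℕ) →+* IsLocalRing.ResidueField 𝒪}
  {T : Type} [CommRing T] [IsLocalRing T] [IsNoetherianRing T]
  [IsAdicComplete (IsLocalRing.maximalIdeal T) T] [Algebra 𝒪 T] [IsLocalHom (algebraMap 𝒪 T)]
  [Module.Finite 𝒪 T] [Module.Free 𝒪 T]
open CuspForm CuspForm.HeckeGaloisRepDatum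

namespace Fermat.Agent.S33

theorem result
    [Finite (IsLocalRing.ResidueField 𝒪)] [CharZero 𝒪]
    (hp : p.Prime) (hp2 : p ≠ 2) (hp𝒪 : (p : 𝒪) ∈ IsLocalRing.maximalIdeal 𝒪) (hN : p ∣ N ∧ ¬ p ^ 2 ∣ N)
    (hNS : ∀ q : ℕ, q.Prime → q ∣ N → q ∈ S)
    (H : CuspForm.HeckeGaloisRepDatum N (↑S : Set ℕ) 𝒪 θ T)
    (hres : (GaloisRepAdic.ofResidualGaloisRep H.ρ.residual).IsOrdinaryAt p) :
    H.ρ.IsOrdinaryAt p := by
  haveI : Fact p.Prime := ⟨hp⟩
  exact Fermat.Agent.S33W.s33w_main (Fermat.Agent.S33W.s33w_gamma_final hp hp2 N hN)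
    hp2 hp𝒪 hN.1 hNS H hres

end Fermat.Agent.S33
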