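-- Statement S57 (row 51): patching, descent step.  Proof by seat helper9.
import Fermat.Statements.S57
import Fermat.Agent.Lib.Helper9.PowerSeriesDepth

set_option autoImplicit false
open Algebra Algebra.PatchingLevel

namespace Fermat.Agent.S57

open Fermat.Agent.Lib.Helper9 IsLocalRing

/-- A copy of the power series ring, used as the source of the structure map `φ`. -/
def Src (𝒪 : Type) [CommRing 𝒪] (r : ℕ) : Type := MvPowerSeries (Fin r) 𝒪

noncomputable instance instCommRingSrc (𝒪 : Type) [CommRing 𝒪] (r : ℕ) : CommRing (Src 𝒪 r) :=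
  inferInstanceAs (CommRing (MvPowerSeries (Fin r) 𝒪))

section Key

variable {𝒪 : Type} [CommRing 𝒪] [IsDomain 𝒪] [IsDiscreteValuationRing 𝒪]
  {r : ℕ} {R : Type} [CommRing R] [Algebra 𝒪 R]
  {M : Type} [AddCommGroup M] [Module R M] [Nontrivial M]
  (L : Algebra.PatchingLevel 𝒪 r R M ⊥)

include L in
theorem nontrivial_R : Nontrivial R := Module.nontrivial R M

theorem nontrivial_N : Nontrivial L.N := L.π_surjective.nontrivial

theorem φ_X_mem_maximalIdeal (i : Fin r) :
    L.φ (MvPowerSeries.X i) ∈ maximalIdeal (MvPowerSeries (Fin r) 𝒪) := by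
  haveI := nontrivial_R L
  rw [mem_maximalIdeal, mem_nonunits_iff]
  intro hu
  have h1 : IsUnit (L.ψ (L.φ (MvPowerSeries.X i))) := hu.map L.ψ
  rw [L.ψ_φ_X i] at h1
  exact not_isUnit_zero h1

/-- The key step: the patched module is free over the power series ring. -/
theorem free_N : Module.Free (MvPowerSeries (Fin r) 𝒪) L.N := by
  classical
  have hNnt : Nontrivial L.N := nontrivial_N L
  -- the source copy of the power series ring acts through `φ`
  let φ' : Src 𝒪 r →+* MvPowerSeries (Fin r) 𝒪 := (L.φ : MvPowerSeries (Fin r) 𝒪 →+* _)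
  letI : Algebra (Src 𝒪 r) (MvPowerSeries (Fin r) 𝒪) := φ'.toAlgebra
  letI : Module (Src 𝒪 r) L.N := Module.compHom L.N φ'
  have hsmul : ∀ (c : Src 𝒪 r) (x : L.N), c • x = L.φ c • x := fun c x => rfl
  have htower : IsScalarTower (Src 𝒪 r) (MvPowerSeries (Fin r) 𝒪) L.N :=
    ⟨fun c a x => by
      rw [hsmul, Algebra.smul_def, mul_smul]
      rfl⟩
  -- `b` is a basis over the source copy
  have hli : LinearIndependent (Src 𝒪 r) L.b := by
    rw [Fintype.linearIndependent_iff]
    intro g hg i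
    have h : (g i : MvPowerSeries (Fin r) 𝒪) ∈ (⊥ : Ideal (MvPowerSeries (Fin r) 𝒪)) :=
      (L.b_rel g).mp hg i
    exact Ideal.mem_bot.mp h
  have hsp : ⊤ ≤ Submodule.span (Src 𝒪 r) (Set.range L.b) := by
    intro x _
    obtain ⟨c, rfl⟩ := L.b_span x
    refine Submodule.sum_mem _ fun i _ => ?_
    have h1 : L.b i ∈ Submodule.span (Src 𝒪 r) (Set.range L.b) := Submodule.subset_span ⟨i, rfl⟩
    have h2 := Submodule.smul_mem (Submodule.span (Src 𝒪 r) (Set.range L.b)) (c i : Src 𝒪 r) h1
    exact h2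
  let bas : Module.Basis (Fin L.d) (Src 𝒪 r) L.N := Module.Basis.mk hli hsp
  have hfreeB : Module.Free (Src 𝒪 r) L.N := Module.Free.of_basis bas
  have hfinB : Module.Finite (Src 𝒪 r) L.N := Module.Finite.of_basis bas
  -- the regular sequence
  obtain ⟨ϖ, hϖ⟩ := IsDiscreteValuationRing.exists_irreducible 𝒪
  have hk := hasProjectiveDimensionLE_residue_mvPowerSeries (𝒪 := 𝒪) r
  let rs : List (Src 𝒪 r) := stdSeq r ϖ
  have hreg : RingTheory.Sequence.IsWeaklyRegular (R := Src 𝒪 r) (Src 𝒪 r) rs :=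
    isWeaklyRegular_stdSeq r hϖ.ne_zero
  have hmax : (Ideal.ofList (R := Src 𝒪 r) rs).IsMaximal := by
    have h1 := ofList_stdSeq_eq_maximalIdeal r hϖ
    have h2 : (maximalIdeal (MvPowerSeries (Fin r) 𝒪)).IsMaximal := inferInstance
    rw [← h1] at h2
    exact h2
  have hmem : ∀ x ∈ rs,
      algebraMap (Src 𝒪 r) (MvPowerSeries (Fin r) 𝒪) x ∈
        maximalIdeal (MvPowerSeries (Fin r) 𝒪) := by
    intro x hx
    rcases (mem_stdSeq_iff r ϖ x).mp hx with ⟨i, rfl⟩ | rfl
    · exact φ_X_mem_maximalIdeal L i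
    · have h1 : algebraMap (Src 𝒪 r) (MvPowerSeries (Fin r) 𝒪) (MvPowerSeries.C ϖ) =
          MvPowerSeries.C ϖ := by
        show L.φ (MvPowerSeries.C ϖ) = MvPowerSeries.C ϖ
        rw [MvPowerSeries.c_eq_algebraMap]
        exact L.φ.commutes ϖ
      rw [h1, mem_maximalIdeal, mem_nonunits_iff, MvPowerSeries.isUnit_iff_constantCoeff,
        MvPowerSeries.constantCoeff_C]
      exact hϖ.not_isUnit
  exact free_of_free_of_isWeaklyRegular (B := Src 𝒪 r) (A := MvPowerSeries (Fin r) 𝒪)
    (N := L.N) (r + 1) hk rs (length_stdSeq r ϖ) hreg hmem hmax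

end Key

/-- Coordinates of an element of `I • ⊤` with respect to a basis lie in `I`. -/
theorem coord_mem_of_mem_smul_top {A N ι : Type} [CommRing A] [AddCommGroup N] [Module A N]
    (e : Module.Basis ι A N) (I : Ideal A) {x : N} (hx : x ∈ I • (⊤ : Submodule A N)) (i : ι) :
    e.coord i x ∈ I := by
  refine Submodule.smul_induction_on hx ?_ ?_
  · intro a ha n _
    rw [map_smul, smul_eq_mul]
    exact I.mul_mem_right _ ha
  · intro y z hy hz
    rw [map_add]
    exact I.add_mem hy hz

theorem result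
    {𝒪 : Type} [CommRing 𝒪] [IsDomain 𝒪] [IsDiscreteValuationRing 𝒪]
    {r : ℕ} {R : Type} [CommRing R] [Algebra 𝒪 R]
    {M : Type} [AddCommGroup M] [Module R M] [Nontrivial M]
    (L : Algebra.PatchingLevel 𝒪 r R M ⊥) :
    Module.Free R M ∧ Module.annihilator R M = ⊥ ∧
      RingHom.ker L.ψ = Ideal.span (Set.range fun i : Fin r => L.φ (MvPowerSeries.X i)) := by
  classical
  have hfree : Module.Free (MvPowerSeries (Fin r) 𝒪) L.N := free_N L
  have hNnt : Nontrivial L.N := nontrivial_N L
  have hRnt : Nontrivial R := nontrivial_R L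
  set I : Ideal (MvPowerSeries (Fin r) 𝒪) :=
    Ideal.span (Set.range fun i : Fin r => L.φ (MvPowerSeries.X i)) with hI
  -- a basis of `N`
  let ι := Module.Free.ChooseBasisIndex (MvPowerSeries (Fin r) 𝒪) L.N
  let e : Module.Basis ι (MvPowerSeries (Fin r) 𝒪) L.N :=
    Module.Free.chooseBasis (MvPowerSeries (Fin r) 𝒪) L.N
  have hιne : Nonempty ι := e.index_nonempty
  -- `I ≤ ker ψ`
  have hIker : I ≤ RingHom.ker L.ψ := by
    rw [hI, Ideal.span_le]
    rintro _ ⟨i, rfl⟩
    exact L.ψ_φ_X i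
  -- π of a finite linear combination
  have hπsum : ∀ (s : Finset ι) (f : ι → MvPowerSeries (Fin r) 𝒪),
      L.π (∑ i ∈ s, f i • e i) = ∑ i ∈ s, L.ψ (f i) • L.π (e i) := by
    intro s f
    rw [map_sum]
    exact Finset.sum_congr rfl fun i _ => L.π_smul _ _
  -- coordinates of a finite linear combination
  have hcoord : ∀ (s : Finset ι) (f : ι → MvPowerSeries (Fin r) 𝒪) (j : ι), j ∈ s →
      e.coord j (∑ i ∈ s, f i • e i) = f j := by
    intro s f j hj
    rw [map_sum, Finset.sum_eq_single j]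
    · rw [map_smul, Module.Basis.coord_apply, Module.Basis.repr_self, Finsupp.single_eq_same,
        smul_eq_mul, mul_one]
    · intro i _ hij
      rw [map_smul, Module.Basis.coord_apply, Module.Basis.repr_self,
        Finsupp.single_eq_of_ne' hij, smul_zero]
    · intro h; exact absurd hj h
  -- key: a combination mapping to zero has coefficients in `I`
  have hkey : ∀ (s : Finset ι) (f : ι → MvPowerSeries (Fin r) 𝒪),
      ∑ i ∈ s, L.ψ (f i) • L.π (e i) = 0 → ∀ j ∈ s, f j ∈ I := by
    intro s f h0 j hj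
    rw [← hπsum, L.ker_π] at h0
    have := coord_mem_of_mem_smul_top e I h0 j
    rwa [hcoord s f j hj] at this
  -- `ker ψ ≤ I`
  have hkerI : RingHom.ker L.ψ ≤ I := by
    intro f hf
    obtain ⟨i₀⟩ := hιne
    rw [RingHom.mem_ker] at hf
    refine hkey {i₀} (fun _ => f) ?_ i₀ (Finset.mem_singleton_self i₀)
    rw [Finset.sum_singleton, hf, zero_smul]
  -- linear independence of the images
  have hli : LinearIndependent R (fun i : ι => L.π (e i)) := by
    rw [linearIndependent_iff']
    intro s g hg j hj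
    let f : ι → MvPowerSeries (Fin r) 𝒪 := fun i => Function.surjInv L.ψ_surjective (g i)
    have hf : ∀ i, L.ψ (f i) = g i := fun i => Function.surjInv_eq L.ψ_surjective (g i)
    have h0 : ∑ i ∈ s, L.ψ (f i) • L.π (e i) = 0 := by
      rw [← hg]
      exact Finset.sum_congr rfl fun i _ => by rw [hf]
    have := hIker (hkey s f h0 j hj)
    rw [RingHom.mem_ker, hf] at this
    exact this
  have hsp : ⊤ ≤ Submodule.span R (Set.range fun i : ι => L.π (e i)) := by
    intro m _
    obtain ⟨x, rfl⟩ := L.π_surjective m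
    have hx : x = ∑ i ∈ (e.repr x).support, (e.repr x) i • e i := by
      conv_lhs => rw [← e.linearCombination_repr x]
      rw [Finsupp.linearCombination_apply, Finsupp.sum]
    rw [hx, hπsum]
    refine Submodule.sum_mem _ fun i _ => ?_
    exact Submodule.smul_mem _ _ (Submodule.subset_span ⟨i, rfl⟩)
  let basM : Module.Basis ι R M := Module.Basis.mk hli hsp
  have hfreeM : Module.Free R M := Module.Free.of_basis basM
  refine ⟨hfreeM, ?_, le_antisymm hkerI hIker⟩
  -- faithfulness
  rw [eq_bot_iff]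
  intro a ha
  rw [Module.mem_annihilator] at ha
  obtain ⟨i₀⟩ := hιne
  have h1 : a • L.π (e i₀) = 0 := ha _
  have h2 := linearIndependent_iff'.mp hli {i₀} (fun _ => a)
    (by rw [Finset.sum_singleton]; exact h1) i₀ (Finset.mem_singleton_self i₀)
  exact (Submodule.mem_bot R).mpr h2

end Fermat.Agent.S57
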