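import Fermat.Statements.S58
import Fermat.Agent.Lib.S58.Assembly
import Fermat.Agent.Lib.S58.ET

set_option autoImplicit false
set_option autoImplicit false
open WeierstrassCurve

namespace Fermat.Agent.S58

theorem result
    (W : WeierstrassCurve ℤ) (hss : W.IsSemistableModel) (N : ℕ)
    (p : ℕ) [Fact p.Prime] (hp2 : p ≠ 2) (hirr : W.ModRepIsIrreducible p)
    (hp2N : ¬ p ^ 2 ∣ N)
    (hN : W.IsModularModelOfLevel N) (hbad : ∀ ℓ : ℕ, ℓ.Prime → (ℓ : ℤ) ∣ W.Δ → ℓ ∣ N)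
    (hN3 : ∀ q : ℕ, q.Prime → ¬ q ^ 3 ∣ N) :
    W.IsModularModelOfLevel W.conductorLevel :=
  s58a_main W hss N p hp2 hirr hp2N hN hbad hN3
    (s58_et W (s58a_Δ_ne_zero W (s58a_N_ne_zero hN3) hbad))

end Fermat.Agent.S58
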