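-- S14: `ExtVanishingCts p` for `p ≥ 3` (class field theory of `ℚ(ζ_p)` + Jacobi sums).
import Fermat.Statements.S14
import Fermat.Agent.Lib.CFT.S14.Final
import Fermat.Agent.Lib.CFT.Bridge.PsiOrder
import Fermat.Agent.Lib.CFT.Bridge.C5e

set_option autoImplicit false
open ExtCitation

namespace Fermat.Agent.S14

open Fermat.Agent.CFT Fermat.Agent.CFT.Bridge Fermat.Agent.CFT.Global Fermat.Agent.CFT.S14

theorem result {p : ℕ} [Fact p.Prime] (h3 : 3 ≤ p) :
    ExtCitation.ExtVanishingCts p := by
  have hp2 : p ≠ 2 := by omega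
  exact extVanishingCts_of_pFundamental p h3
    (Ctow_pFundamental_of p hp2 {pPrimes p} (cycLevel p 0) (cycLevel_zero_isS p)
      (Finset.mem_singleton_self _) (orderInput p hp2 {pPrimes p} (Finset.mem_singleton_self _))
      (resInput p hp2 {pPrimes p} (Finset.mem_singleton_self _)))

end Fermat.Agent.S14
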