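-- Statement S51: for a semistable integral Weierstrass curve, one of the mod-3 and mod-5
-- representations is irreducible (rational points of X₀(15)).
import Fermat.Statements.S51
import Fermat.Agent.Lib.X015.StableLine
import Fermat.Agent.Lib.X015.VariableChangePoint
import Fermat.Agent.Lib.X015.ShortTorsion
import Fermat.Agent.Lib.X015.ParamThree
import Fermat.Agent.Lib.X015.ParamFive
import Fermat.Agent.Lib.X015.PlaneModel
import Fermat.Agent.Lib.X015.Points15a
import Fermat.Agent.Lib.X015.NotSemistable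

set_option autoImplicit false
open WeierstrassCurve WeierstrassCurve.Affine WeierstrassCurve.Affine.Point
open CuspForm ModularFormClass UpperHalfPlane
open WeierstrassCurve

namespace Fermat.Agent.S51

open Fermat.Agent.X015 in
theorem result (W : WeierstrassCurve ℤ) (hΔ : W.Δ ≠ 0) (hW : W.IsSemistableModel) : W.ModRepIsIrreducible 3 ∨ W.ModRepIsIrreducible 5 := by
  by_contra hcon
  push Not at hcon
  obtain ⟨h3, h5⟩ := hcon
  unfold WeierstrassCurve.ModRepIsIrreducible at h3 h5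
  set E : WeierstrassCurve ℚ := W.map (Int.castRingHom ℚ) with hE
  have hΔE : E.Δ ≠ 0 := by
    rw [hE, map_Δ, eq_intCast]
    exact_mod_cast hΔ
  have hc4E : E.c₄ = (W.c₄ : ℚ) := by rw [hE, map_c₄]; rfl
  have hΔE' : E.Δ = (W.Δ : ℚ) := by rw [hE, map_Δ]; rfl
  -- short Weierstrass form
  set C : VariableChange ℚ := E.toShortNF with hC
  set E' : WeierstrassCurve ℚ := C • E with hE'
  haveI : E'.IsShortNF := E.toShortNF_spec
  have hu : ((C.u⁻¹ : ℚˣ) : ℚ) ≠ 0 := (C.u⁻¹).ne_zero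
  have hΔ' : E'.Δ ≠ 0 := by
    rw [hE', variableChange_Δ]
    exact mul_ne_zero (pow_ne_zero _ hu) hΔE
  have h3' : ¬ Affine.Point.GaloisRepIsIrreducible (K := AlgebraicClosure ℚ) ℚ E'.toAffine 3 :=
    fun h => h3 ((galoisRepIsIrreducible_variableChange_iff E C 3).mp h)
  have h5' : ¬ Affine.Point.GaloisRepIsIrreducible (K := AlgebraicClosure ℚ) ℚ E'.toAffine 5 :=
    fun h => h5 ((galoisRepIsIrreducible_variableChange_iff E C 5).mp h)
  -- torsion over the algebraic closure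
  set W' : WeierstrassCurve (AlgebraicClosure ℚ) := E'.baseChange (AlgebraicClosure ℚ) with hW'
  haveI : W'.IsShortNF := isShortNF_baseChange_qbar E'
  have hΔW' : W'.Δ ≠ 0 := baseChange_qbar_Δ_ne_zero E' hΔ'
  haveI : Fact (Nat.Prime 3) := ⟨by norm_num⟩
  haveI : Fact (Nat.Prime 5) := ⟨by norm_num⟩
  obtain ⟨P3, hP30, hP3, hst3⟩ := exists_stable_point_of_not_irreducible E' 3
    (exists_three_torsion W' hΔW') (card_three_torsion_le W' hΔW') h3'
  obtain ⟨P5, hP50, hP5, hst5⟩ := exists_stable_point_of_not_irreducible E' 5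
    (exists_five_torsion W' hΔW') (card_five_torsion_le W' hΔW') h5'
  obtain ⟨h, hh0, hh⟩ := exists_param_three E' hΔ' P3 hP30 hP3 hst3
  obtain ⟨u, hu0, hu'⟩ := exists_param_five E' hΔ' P5 hP50 hP5 hst5
  -- the plane model of X₀(15)
  have H : u * ((h + 27) * (h + 3) ^ 3) = h * (u ^ 2 + 10 * u + 5) ^ 3 := by
    apply mul_left_cancel₀ hΔ'
    linear_combination (-u) * hh + h * hu'
  have hj := x015_rational_points_of rational_points_15a h u hh0 hu0 H
  -- back to `W`
  have hc4' : E'.c₄ = ((C.u⁻¹ : ℚˣ) : ℚ) ^ 4 * E.c₄ := variableChange_c₄ E C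
  have hΔ'' : E'.Δ = ((C.u⁻¹ : ℚˣ) : ℚ) ^ 12 * E.Δ := variableChange_Δ E C
  have key : (W.c₄ : ℚ) ^ 3 = ((h + 27) * (h + 3) ^ 3 / h) * (W.Δ : ℚ) := by
    rw [← hc4E, ← hΔE']
    have h12 : ((C.u⁻¹ : ℚˣ) : ℚ) ^ 12 ≠ 0 := pow_ne_zero _ hu
    rw [hc4', hΔ''] at hh
    have e1 : E.c₄ ^ 3 * h = E.Δ * ((h + 27) * (h + 3) ^ 3) := by
      apply mul_left_cancel₀ h12
      linear_combination hh
    rw [div_mul_eq_mul_div, eq_div_iff hh0]
    linear_combination e1
  exact not_semistable_of_j W hΔ hW _ hj key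

end Fermat.Agent.S51
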