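-- Statement S08: every weight-2 cusp form of level Γ₀(1) is zero.
import Fermat.Statements.S08
import Fermat.Agent.Lib.Helper2.CuspSturm

set_option autoImplicit false
open WeierstrassCurve WeierstrassCurve.Affine WeierstrassCurve.Affine.Point
open CuspForm ModularFormClass UpperHalfPlane
open ModularForm

namespace Fermat.Agent.S08

theorem result (f : CuspForm (CongruenceSubgroup.Gamma0 1) 2) : f = 0 := by
  refine Fermat.Agent.Lib.Helper2.cuspForm_Gamma0_eq_zero_of_small_index 1 ?_ f
  rw [Fermat.Agent.Lib.Helper2.Gamma0_one_eq_top, Subgroup.index_top]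
  norm_num

end Fermat.Agent.S08
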