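-- Statement S43 (row 37): Ribet's level lowering, Frey-curve form
-- (FreyPackage.level_lowering_odd_prime_of_conductorLevel). The statement below is byte-identical to the
-- template. Proof: `ihw_main` (minimal level + case split), cases (A)+(B) `ihb_mazur_closed` (q-old case and
-- Mazur's principle), case (C) `iha_ihara ihr_modular` (q = 1 mod p with scalar Frobenius: Taylor-Wiles
-- patching of the type-chi Hecke modules and the congruence chi = 1 mod the uniformiser), S44 (removing p)
-- and S05 (the Frey representation is unramified at the odd primes other than p).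
import Fermat.Statements.S43
import Fermat.Agent.S05
import Fermat.Agent.Lib.Ihara.W.Top
import Fermat.Agent.Lib.Ihara.B.Closed
import Fermat.Agent.Lib.Ihara.Asm.Top
import Fermat.Agent.Lib.Ihara.Rb.Modular

set_option autoImplicit false
open WeierstrassCurve WeierstrassCurve.Affine WeierstrassCurve.Affine.Point
open CuspForm ModularFormClass UpperHalfPlane
open FreyPackage

namespace Fermat.Agent.S43

theorem result (P : FreyPackage) {N q : ℕ} (hcond : P.IsConductorLevel N) (hq : q.Prime) (hq2 : q ≠ 2) (hqp : q ≠ P.p) (hqN : q ∣ N) (hirr : GaloisRepIsIrreducible (K := AlgebraicClosure ℚ) ℚ P.freyCurve P.p) (hmod : P.ModularRepOfLevel N) (hunr : P.GaloisRepUnramifiedAt q) : ∃ M : ℕ, M ∣ N ∧ ¬ q ∣ M ∧ P.ModularRepOfLevel M :=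
  Fermat.Agent.Ihara.ihw_main Fermat.Agent.Ihara.ihb_mazur_closed
    (Fermat.Agent.Ihara.iha_ihara Fermat.Agent.Ihara.ihr_modular) P hcond hq hq2 hqp hqN hirr hmod
    (fun _ hr hr2 hrp => Fermat.Agent.S05.result P hr hr2 hrp)

end Fermat.Agent.S43
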