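-- Statement S12 (row 11): the mod-p representation of the Frey curve has no Galois-stable
-- cofixed line when p ≥ 17.  ISOG track: abstract chain (`mz2c_final`, Chain/*), global input
-- (`mz2i_false`, Frey/Input), local package (P3) (`mz2eT0`, Comp/Fields + Frey/Data) and
-- local package (P4) (`mz2l_t1`, LocP/Main).
import Fermat.Statements.S12
import Fermat.Agent.Lib.Mazur2.Frey.Input
import Fermat.Agent.Lib.Mazur2.Frey.Data
import Fermat.Agent.Lib.Mazur2.Comp.Fields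
import Fermat.Agent.Lib.Mazur2.LocP.Main

set_option autoImplicit false
open WeierstrassCurve WeierstrassCurve.Affine WeierstrassCurve.Affine.Point
open CuspForm ModularFormClass UpperHalfPlane
open FreyPackage
open Fermat.Agent.Mazur2

namespace Fermat.Agent.S12

/-- package (P3) for the Frey curve: `T0 A` = the identity component at `A` -/
theorem mz2x_loc0 (P : FreyPackage) [Fact P.p.Prime] (hp : 17 ≤ P.p) :
    Mz2iLoc0 P (mz2eT0 P.freyCurveInt) where
  mem_iff := fun ℓ hℓ hℓp A hA Q n hQ =>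
    mz2e_t0_mem_iff P.freyCurveInt (mz2f_Δ_ne_zero P)
      (fun ℓ hℓ A hA hbad => mz2h_frey_data P hℓ A hA hbad) hℓ
      (fun h => hℓp ((Nat.prime_dvd_prime_iff_eq hℓ P.pp).mp (hℓ.dvd_of_dvd_pow h))) A hA Q hQ
  t0_inert := fun ℓ hℓ hℓp A hA σ hσ n x hx hxn =>
    mz2e_t0_inert P.freyCurveInt (mz2f_Δ_ne_zero P)
      (fun ℓ hℓ A hA hbad => mz2h_frey_data P hℓ A hA hbad) hℓ
      (fun h => hℓp ((Nat.prime_dvd_prime_iff_eq hℓ P.pp).mp (hℓ.dvd_of_dvd_pow h))) A hA hσ x hx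
      (mem_mz2cTor.mp hxn)
  t0_quot := fun ℓ hℓ hℓp A hA σ hσ n x hxn =>
    mz2e_t0_quot P.freyCurveInt (n := P.p ^ n)
      ((P.pp.odd_of_ne_two (by omega)).pow) A hσ x (mem_mz2cTor.mp hxn)
  t0_small := fun ℓ hℓ hℓp A hA =>
    mz2e_t0_small P.freyCurveInt hℓ P.pp (by omega) hℓp A hA
  t0_frob := fun r hr A hA => by
    have hrp : r.Prime := by rcases hr with rfl | rfl <;> norm_num
    have hne : r ≠ P.p := by rcases hr with rfl | rfl <;> omega
    obtain ⟨σ, hσ, h⟩ := mz2e_t0_frob P.freyCurveInt (p := P.p) hrp hne A hA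
    exact ⟨σ, hσ, fun n x _ => h x⟩

theorem result (P : FreyPackage) (hp : 17 ≤ P.p) : ¬ HasGaloisStableCofixedLine (K := AlgebraicClosure ℚ) ℚ P.freyCurve P.p := by
  intro h
  have : Fact P.p.Prime := ⟨P.pp⟩
  refine mz2i_false P hp h ⟨mz2eT0 P.freyCurveInt, mz2x_loc0 P hp⟩ ?_
  intro N hN hcard _ _ hcyc
  obtain ⟨T1, h1, h2, h3, h4⟩ := mz2l_t1 P N hN hcard hcyc
  exact ⟨T1, ⟨h1, h2, h3, h4⟩⟩

end Fermat.Agent.S12
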