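import Fermat.Statements.S13
import Fermat.Agent.Lib.S13.Assembly
import Fermat.Agent.Lib.S13.Torsion.Frey
import Fermat.Agent.Lib.S13.AtTwo.FreyTwo
import Fermat.Agent.Lib.S13.AtP
import Fermat.Agent.Lib.S13.DivPoly.DepthBound

set_option autoImplicit false
open WeierstrassCurve WeierstrassCurve.Affine WeierstrassCurve.Affine.Point
open CuspForm ModularFormClass UpperHalfPlane
open FreyPackage

namespace Fermat.Agent.S13

theorem result (P : FreyPackage) (hred : ¬ GaloisRepIsIrreducible (K := AlgebraicClosure ℚ) ℚ P.freyCurve P.p) : HasGaloisStableCofixedLine (K := AlgebraicClosure ℚ) ℚ P.freyCurve P.p := by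
  have hcard := Fermat.Agent.S13Lib.Torsion.natCard_torsionBy_frey P P.hppos
  have hodd : Odd P.p := P.pp.odd_of_ne_two (by have := P.hp5; omega)
  exact Fermat.Agent.S13Lib.Assembly.hasCofixedLine_of_packages P hcard
    (fun A hA σ hσ x => Fermat.Agent.S13Lib.frey_inertia_two_unipotent P A hA σ hσ x)
    (fun x hx => Fermat.Agent.S13Lib.frey_torsion_fixed_eq_zero P x hx)
    (Fermat.Agent.S13Lib.frey_atP_dichotomy P hcard
      (fun e r he hr her A v hv hq1 =>
        Fermat.Agent.S13Lib.depthBoundAt_legQ_of_divPoly e r he hr her hv hodd hq1))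
    hred

end Fermat.Agent.S13
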