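-- Statement S09 (row 8): Mazur — the mod-p Galois representation of the Frey curve is
-- irreducible.  Wiring: S13 (reducible ⇒ Galois-stable cofixed line) + S10 (p = 5, 7, 13)
-- + S11 (p = 11) + S12 (p ≥ 17).
import Fermat.Statements.S09
import Fermat.Agent.S10
import Fermat.Agent.S11
import Fermat.Agent.S12
import Fermat.Agent.S13

set_option autoImplicit false
open WeierstrassCurve WeierstrassCurve.Affine WeierstrassCurve.Affine.Point
open CuspForm ModularFormClass UpperHalfPlane
open FreyPackage

namespace Fermat.Agent.S09

theorem result (P : FreyPackage) : GaloisRepIsIrreducible (K := AlgebraicClosure ℚ) ℚ P.freyCurve P.p := by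
  by_contra hred
  have h := Fermat.Agent.S13.result P hred
  by_cases h17 : 17 ≤ P.p
  · exact Fermat.Agent.S12.result P h17 h
  · have hp5 := P.hp5
    have hpp := P.pp
    have hlt : P.p < 17 := by omega
    have hcases : P.p = 5 ∨ P.p = 7 ∨ P.p = 11 ∨ P.p = 13 := by
      have hmem : P.p ∈ Finset.Icc 5 16 := Finset.mem_Icc.mpr ⟨hp5, by omega⟩
      generalize P.p = q at hpp hmem
      revert hpp
      revert q
      decide
    rcases hcases with h5 | h7 | h11 | h13
    · exact Fermat.Agent.S10.result P (Or.inl h5) h
    · exact Fermat.Agent.S10.result P (Or.inr (Or.inl h7)) h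
    · exact Fermat.Agent.S11.result P h11 h
    · exact Fermat.Agent.S10.result P (Or.inr (Or.inr h13)) h

end Fermat.Agent.S09
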