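-- Statement S15 (row 14): Mazur's step three, `¬ W.InZeroComponentAt A Q`.
-- The statement below is byte-identical to the frozen statement WeierstrassCurve.FermatFrozen.S15
-- (Fermat/Statements/S15.lean; the theorem WeierstrassCurve.mazurStepThree_not_inZeroComponentAt).
--
-- Proof (MAZUR track): `mzh_final` (package (H), formal immersion at the cusp + Eisenstein quotient)
-- applied to `MzhInputs2 p`, which `mzh_inputs2_of_red` fills from (E3) the cuspidal class,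
-- (E2) the numerator conditions, (R5) the Hecke stability of the kernel of reduction and the two
-- (R4) facts `mzrf_red_inf`, `mzrf_red_zero` (places of X₀(p) reducing to a cusp).
import Fermat.Statements.S15
import Fermat.Agent.Lib.Mazur.H.Wire
import Fermat.Agent.Lib.Mazur.Red.R4Fin

set_option autoImplicit false
open WeierstrassCurve WeierstrassCurve.Affine
open WeierstrassCurve

namespace Fermat.Agent.S15

theorem result
    {p : ℕ} (hp : p.Prime) (hp' : p ∉ ({2, 3, 5, 7, 13} : Finset ℕ))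
    (W : WeierstrassCurve ℤ) (hΔ : W.Δ ≠ 0)
    (Q : ((W.map (Int.castRingHom ℚ))⁄(AlgebraicClosure ℚ)).Point)
    (hQfix : ∀ σ : AlgebraicClosure ℚ ≃ₐ[ℚ] AlgebraicClosure ℚ, σ • Q = Q)
    (hQord : addOrderOf Q = p)
    (h2Δ : (2 : ℤ) ∣ W.Δ) (h2c₄ : ¬ (2 : ℤ) ∣ W.c₄)
    (h2 : ∀ A : ValuationSubring (AlgebraicClosure ℚ), A.LiesOverPrime 2 → ¬ W.InZeroComponentAt A Q)
    (h3Δ : (3 : ℤ) ∣ W.Δ) (h3c₄ : ¬ (3 : ℤ) ∣ W.c₄)
    (h3 : ∀ A : ValuationSubring (AlgebraicClosure ℚ), A.LiesOverPrime 3 → ¬ W.InZeroComponentAt A Q)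
    {ℓ : ℕ} (hℓ : ℓ.Prime) (hℓp : ℓ ≠ p) (hℓΔ : (ℓ : ℤ) ∣ W.Δ) (hℓc₄ : ¬ (ℓ : ℤ) ∣ W.c₄)
    (A : ValuationSubring (AlgebraicClosure ℚ)) (hA : A.LiesOverPrime ℓ) :
    ¬ W.InZeroComponentAt A Q := by
  have hpF : Fact p.Prime := ⟨hp⟩
  exact Fermat.Agent.Mazur.mzh_final
    (Fermat.Agent.Mazur.mzh_inputs2_of_red hp'
      (fun 𝔓 hN x j₁ j₂ => Fermat.Agent.Mazur.mzrf_red_inf 𝔓 p hN x j₁ j₂)
      (fun 𝔓 hN x j₁ j₂ => Fermat.Agent.Mazur.mzrf_red_zero 𝔓 p hN x j₁ j₂))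
    hp' W hΔ Q hQfix hQord h2Δ h2c₄ h2 h3Δ h3c₄ h3 hℓ hℓp hℓΔ hℓc₄ A hA

end Fermat.Agent.S15
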