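-- S16: the order of the Eisenstein quotient of the Hecke algebra of prime level `p` is the
-- numerator of `(p - 1)/12` (Mazur).  Assembly of the P11 packages (A), (B), (C), (D), (R).
import Fermat.Statements.S16
import Fermat.Agent.Lib.Eis.Assemble
import Fermat.Agent.Lib.Eis.Geom.GenusBound

set_option autoImplicit false
open ModularCurve CuspForm
open ModularCurve

namespace Fermat.Agent.S16

theorem result
    (p : ℕ) [Fact p.Prime] :
    Nat.card (↥(heckeLatticeAlgebra p ∅) ⧸
        Ideal.map ((latticeRestrictHom p ∅).toRingHom.comp (heckeEvalForms p 2))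
          (eisensteinIdeal p)) =
      eisensteinNumerator p := by
  have hpp : p.Prime := Fact.out
  have : NeZero p := ⟨hpp.ne_zero⟩
  have : CharP (AlgebraicClosure (ZMod 2)) 2 := by infer_instance
  exact Fermat.Agent.Eis.natCard_eisenstein_quotient_of_genus_le p (AlgebraicClosure (ZMod 2))
    (fun h24 => Fermat.Agent.Eis.eh_twelve_mul_genus_le (AlgebraicClosure (ZMod 2)) p (by omega))

end Fermat.Agent.S16
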