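-- S18: the prime-to-ℓ torsion of J₀(N) injects under reduction mod ℓ (ℓ ∤ N).
-- Proof: good reduction of X₀(N) in the function-field model (T1-A CORE, helper6; special fibre
-- helper5, helper4), the lattice/semicontinuity layer and the K1 argument (T1-B, helper9), the
-- level descent (helper7) and the cusp divisibility (helper3).
import Fermat.Statements.S18
import Fermat.Agent.Lib.T1.S18.AllLevels

set_option autoImplicit false
open ModularCurve

namespace Fermat.Agent.S18

theorem result (N : ℕ) [NeZero N] {ℓ : ℕ}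
    [Fact ℓ.Prime] (hℓN : ¬ ℓ ∣ N) (A : ValuationSubring (AlgebraicClosure ℚ)) (hA : A.LiesOverPrime ℓ)
    (h : ModularCurve.ReductionInputsModL A N) (m : ℕ) (hm : ¬ ℓ ∣ m) (z : ModularCurve.JZero N)
    (hmz : m • z = 0) (hz : ModularCurve.reductionModL A N z = 0) :
    z = 0 :=
  Fermat.Agent.T1.ts_s18 ⟨A, ℓ, Fact.out, hA⟩ N hℓN h m hm z hmz hz

end Fermat.Agent.S18
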