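-- Statement S19 (the theorem ModularCurve.exists_finiteFlat_model_jZero_torsion): the finite flat model of
-- `J₀(p)[ℓ^k]` over `ℤ_(ℓ)` for `ℓ ∤ p`.
-- Assembly of project ALPHA (`Fermat/Agent/Lib/Alpha/`): the Hopf order criterion (`AlphHasOrder`, END
-- `alph_end`, unramified descent `alpu_span`), the KEY lemma `alpx_key` (Δ-closure of the chart
-- functions), the modular chart at a good level (`alpm_good`: RED, KM, CRANK, CHART, INV, MOD), finiteness
-- of the torsion (FIN) and the level lowering along `t3pPull` (`alpf_s19_of_good`).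
import Fermat.Statements.S19
import Fermat.Agent.Lib.Alpha.Fin.Level
import Fermat.Agent.Lib.Alpha.Mod.Final

set_option autoImplicit false
open ModularCurve
open ModularCurve

namespace Fermat.Agent.S19

theorem result
    (p : ℕ) [NeZero p] (ℓ : ℕ) [Fact ℓ.Prime] (hℓp : ¬ ℓ ∣ p) (k : ℕ) :
    ∃ (H : Type) (_ : CommRing H) (_ : HopfAlgebra (GaloisRep.ratLocalizedAt ℓ) H),
      Module.Finite (GaloisRep.ratLocalizedAt ℓ) H ∧ Module.Flat (GaloisRep.ratLocalizedAt ℓ) H ∧
      Coalgebra.IsCocomm (GaloisRep.ratLocalizedAt ℓ) H ∧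
      ∃ e : WithConv (H →ₐ[GaloisRep.ratLocalizedAt ℓ] AlgebraicClosure ℚ) ≃
          ↥(Submodule.torsionBy ℤ (JZero p) ((ℓ : ℤ) ^ k)),
        (∀ f g, e (f * g) = e f + e g) ∧
        ∀ (σ : AlgebraicClosure ℚ ≃ₐ[ℚ] AlgebraicClosure ℚ)
          (f g : WithConv (H →ₐ[GaloisRep.ratLocalizedAt ℓ] AlgebraicClosure ℚ)),
          (∀ h : H, g h = σ (f h)) → ((e g : JZero p)) = σ • (e f : JZero p) :=
  Fermat.Agent.Alpha.alpf_s19_of_good
    (fun M _ ℓ _ h49 hM k => Fermat.Agent.Alpha.alpm_good M ℓ h49 hM k) p ℓ hℓp k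

end Fermat.Agent.S19
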