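-- S37 (T3, architect helper6): Eichler–Shimura congruence relation in the packaged form
-- `SpecializationExists` for `J₀(N)`.
-- Route: reduction of divisor classes of `X₀(M)` at a good auxiliary level `M = N e` (`4 ∣ M` or `9 ∣ M`)
-- modulo a place of `ℚ̄` over `ℓ` (package A, helper6), its Galois equivariance (B, helper5),
-- Eichler–Shimura on points via the Kronecker congruence and the value of a norm (D, helper7; H, helper5;
-- K, helper7), pull-back `J₀(N) → J₀(M)` (P, helper1), glue (G/Z, helper6).
import Fermat.Statements.S37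
import Fermat.Agent.Lib.T3.Asm.Glue
import Fermat.Agent.Lib.T3.ES.Final
import Fermat.Agent.Lib.T3.ES.Level1

set_option autoImplicit false
open ModularCurve

namespace Fermat.Agent.S37

theorem result (N p : ℕ) [NeZero N] (hcomm : ModularCurve.HeckeOperatorsCommuteBar N) : letI := ModularCurve.heckeModuleBar N; ∀ (_ : SMulCommClass (AlgebraicClosure ℚ ≃ₐ[ℚ] AlgebraicClosure ℚ) ModularCurve.HeckeAlg (ModularCurve.JZero N)), ModularCurve.SpecializationExists (K := ℚ) (L := AlgebraicClosure ℚ) N p (ModularCurve.JZero N) :=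
  Fermat.Agent.T3.t3_S37_of_rho
    (Fermat.Agent.T3.t3_rho_of_ES
      (Fermat.Agent.T3.t3d_ES_of_level1
        (fun M ℓ _ _ h => Fermat.Agent.T3.t3d1_hecke_j_poly M ℓ h))) N p hcomm

end Fermat.Agent.S37
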