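-- Statement S41 (level raising, Ribet / Diamond–Taylor).  Proof: `lrm_main` (Lib/LR/Main) with the
-- duality interface `lrdBN` (Lib/LR/Dual/Main) and the eigen-input `lrc_exists_eigen` (Lib/LR/EigenIn).
import Fermat.Statements.S41
import Fermat.Agent.Lib.LR.Main
import Fermat.Agent.Lib.LR.EigenIn
import Fermat.Agent.Lib.LR.Dual.Main

set_option autoImplicit false
open WeierstrassCurve WeierstrassCurve.Affine WeierstrassCurve.Affine.Point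
open scoped CongruenceSubgroup
open WeierstrassCurve

namespace Fermat.Agent.S41

theorem result
    (E : WeierstrassCurve ℚ) [E.IsElliptic] {W : WeierstrassCurve ℤ} (hW : W.IsIntegralModelOf E)
    {p N q' : ℕ} (hp : p.Prime) (hp2 : p ≠ 2) (hN : 0 < N) (hq' : q'.Prime) (hq'N : ¬ q' ∣ N) (hq'p : q' ≠ p)
    (hirr : GaloisRepIsIrreducible (K := AlgebraicClosure ℚ) ℚ E p)
    (f : CuspForm (CongruenceSubgroup.Gamma0 N) 2) (𝔪 : Ideal (integralClosure ℤ ℂ))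
    (hf : f.IsNormalizedEigenform) (hmax : 𝔪.IsMaximal) (hpm : (p : integralClosure ℤ ℂ) ∈ 𝔪)
    (hcong : ∀ ℓ : ℕ, ℓ.Prime → W.IsGoodPrimeFor ℓ → ¬ ℓ ∣ N → ℓ ≠ p →
      ∃ a : integralClosure ℤ ℂ, (a : ℂ) = ModularFormClass.qCoeff f ℓ ∧
        a - ((W.apOfModel ℓ : ℤ) : integralClosure ℤ ℂ) ∈ 𝔪)
    (hLR : ∃ a : integralClosure ℤ ℂ, (a : ℂ) = ModularFormClass.qCoeff f q' ∧
      a ^ 2 - ((q' : integralClosure ℤ ℂ) + 1) ^ 2 ∈ 𝔪) :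
    ∃ (g : CuspForm (CongruenceSubgroup.Gamma0 (N * q')) 2) (𝔪' : Ideal (integralClosure ℤ ℂ)),
      g.IsNormalizedEigenform ∧ 𝔪'.IsMaximal ∧ (p : integralClosure ℤ ℂ) ∈ 𝔪' ∧
      (∀ ℓ : ℕ, ℓ.Prime → W.IsGoodPrimeFor ℓ → ¬ ℓ ∣ N * q' → ℓ ≠ p →
        ∃ a : integralClosure ℤ ℂ, (a : ℂ) = ModularFormClass.qCoeff g ℓ ∧
          a - ((W.apOfModel ℓ : ℤ) : integralClosure ℤ ℂ) ∈ 𝔪') ∧
      g.IsNewAt q' := by
  have hN' : NeZero N := ⟨hN.ne'⟩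
  refine Fermat.Agent.LR.lrm_main (fun M _ => Fermat.Agent.LR.lrdBN M)
    ⟨fun M _ x => Fermat.Agent.LR.lrdBN_alt M x,
     fun M _ f => Fermat.Agent.LR.lrdBN_unimodular M f,
     fun N q _ _ h x y => Fermat.Agent.LR.lrdBN_res_cor N q h x y,
     fun N q _ _ h x y => Fermat.Agent.LR.lrdBN_w N q h x y⟩
    E hW hp hp2 hq' hq'N hq'p hirr ?_
  exact Fermat.Agent.LR.lrc_exists_eigen hq' hq'N hp.ne_zero f 𝔪 hf hmax hpm hcong hLR

end Fermat.Agent.S41
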