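import Fermat.Statements.S45
import Fermat.Agent.Lib.S45.Top
import Fermat.Agent.Lib.T4E.New.GeoStep
import Fermat.Agent.Lib.T4E.StepC.Fix
import Fermat.Agent.Lib.T4E.Reg.Chart1Final

set_option autoImplicit false
open WeierstrassCurve WeierstrassCurve.Affine WeierstrassCurve.Affine.Point
open CuspForm ModularFormClass UpperHalfPlane
open FreyPackage

namespace Fermat.Agent.S45

theorem result (P : FreyPackage) (hmod : P.freyCurve.IsModular) (hirr : GaloisRepIsIrreducible (K := AlgebraicClosure ℚ) ℚ P.freyCurve P.p) : ∃ f : CuspForm (CongruenceSubgroup.Gamma0 2) 2, f ≠ 0 :=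
  s45_of_new
    (Fermat.Agent.T4.t4e_newAux_of_stepC
      (fun 𝔓 N'' k _ h hk h49 m hm hm0 =>
        Fermat.Agent.T4.t4esf_stepC 𝔓 N'' h h49
          (Fermat.Agent.T4.t4erf_step 𝔓 N'' h (Fermat.Agent.T4.t4esf_two_le_pp 𝔓)) k hk
          (Fermat.Agent.T4.t4eg_norm_of_normA 𝔓 N'' h (k + 1) (Nat.le_add_left 1 k)
            (Fermat.Agent.T4.t4eg_normA 𝔓 N'' k h))
          m hm hm0))
    P hmod hirr

end Fermat.Agent.S45
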