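-- Statement S49 (row 44): the Deligne--Serre lifting lemma in the lattice-realised form.
import Fermat.Statements.S49
import Fermat.Agent.Lib.Helper8.LiftingAlgebra
import Fermat.Agent.Lib.Helper8.HeckeFinite
import Fermat.Agent.Lib.Helper8.HeckeEigen
import Fermat.Agent.Lib.Helper8.ModThree

set_option autoImplicit false
open CuspForm EisensteinWeightOne CongruenceSubgroup ModularFormClass
open FLT FLT.AbstractIntegralStructure

namespace Fermat.Agent.S49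

open Fermat.Agent.Lib.Helper8

theorem result
    {N : ℕ} [NeZero N] (h : CuspForm.HasIntegralBasis N) {a : ℕ → ℤ}
    (heig : FormalHecke.IsEigensystem
      (fun ℓ => if ℓ ∣ N then 0 else ((chiNegThree ℓ : ℤ) : ℤ)) a)
    (hreal : CuspForm.IsLatticeRealized N a) :
    ∃ (f : CuspForm (Gamma0 N) 2) (_ : f.IsNormalizedEigenform)
      (𝔪' : Ideal (integralClosure ℤ ℂ)), 𝔪'.IsMaximal ∧
      ((3 : ℕ) : integralClosure ℤ ℂ) ∈ 𝔪' ∧
      ∀ (ℓ : ℕ) (_ : ℓ.Prime) (_ : ¬ ℓ ∣ N),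
        ∃ c : integralClosure ℤ ℂ, (c : ℂ) = ModularFormClass.qCoeff f ℓ ∧
          c - (a ℓ : integralClosure ℤ ℂ) ∈ 𝔪' := by
  classical
  obtain ⟨f₀, hf₀, af, haf, h3'⟩ := hreal
  have hf₀L : f₀ ∈ CuspForm.intLattice N 2 := (h8_mem_qIntegralSet_iff f₀).mp hf₀
  have h3 : ∀ n, (3 : ℤ) ∣ af n - a n := fun n => by
    have := dvd_add (h3' n) (h8_bridgeProduct_coeff a n)
    simpa using this
  have h1 : ¬ (3 : ℤ) ∣ af 1 := by
    intro hdvd
    have h31 := h3 1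
    rw [heig.1] at h31
    omega
  -- finiteness
  have hfd : FiniteDimensional ℂ (CuspForm (Gamma0 N) 2) := h8_finiteDimensional h
  have hfin0 : Module.Finite ℤ (CuspForm.heckeAlgebra N 2 (∅ : Set ℕ)) :=
    h8_moduleFinite_heckeAlgebra h ∅
  have hfin : @Module.Finite ℤ (CuspForm.heckeAlgebra N 2 (∅ : Set ℕ)) _ _
      (AddCommGroup.toIntModule _) := h8_moduleFinite_int_irrel _ _ hfin0
  -- the mod 3 ideal and a maximal ideal above it
  have hI : h8_eigIdeal f₀ ≠ ⊤ := h8_eigIdeal_ne_top f₀ af haf h1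
  obtain ⟨𝔪, h𝔪max, hI𝔪⟩ := Ideal.exists_le_maximal (h8_eigIdeal f₀) hI
  obtain ⟨w, χ, 𝔪', hw0, hχ, h𝔪'max, hcomap⟩ :=
    exists_eigen_character_lifting
      (ι := (CuspForm.heckeAlgebra N 2 (∅ : Set ℕ)).val.toRingHom) Subtype.val_injective 𝔪
  obtain ⟨f, hf, hfℓ⟩ := h8_exists_normalized w hw0 (fun T => ((χ T : integralClosure ℤ ℂ) : ℂ)) hχ
  refine ⟨f, hf, 𝔪', h𝔪'max, ?_, ?_⟩
  · have hmem : ((3 : ℕ) : CuspForm.heckeAlgebra N 2 (∅ : Set ℕ)) ∈ 𝔪 :=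
      hI𝔪 (h8_three_mem_eigIdeal f₀ hf₀L)
    rw [← hcomap, Ideal.mem_comap, map_natCast] at hmem
    exact hmem
  · intro ℓ hℓ hN
    refine ⟨χ (CuspForm.heckeAlgebra.T hℓ hN (Set.notMem_empty ℓ)), (hfℓ ℓ hℓ hN).symm, ?_⟩
    have hrel : ∀ n, a (ℓ * n) + (chiNegThree ℓ : ℤ) * (if ℓ ∣ n then a (n / ℓ) else 0) =
        a ℓ * a n := by
      intro n
      have := heig.2 ℓ hℓ n
      simpa only [if_neg hN] using this
    have hmem : CuspForm.heckeAlgebra.T hℓ hN (Set.notMem_empty ℓ) -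
        ((a ℓ : ℤ) : CuspForm.heckeAlgebra N 2 (∅ : Set ℕ)) ∈ 𝔪 :=
      hI𝔪 (h8_T_sub_mem_eigIdeal f₀ a af haf h3 hℓ hN hrel)
    rw [← hcomap, Ideal.mem_comap, map_sub, map_intCast] at hmem
    exact hmem

end Fermat.Agent.S49
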