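import Fermat.Statements.S52
import Fermat.Agent.Lib.S52.Select
import Fermat.Agent.Lib.S52.Family
import Fermat.Agent.Lib.S52.GenTors

set_option autoImplicit false
open WeierstrassCurve WeierstrassCurve.Affine WeierstrassCurve.Affine.Point
open CuspForm ModularFormClass UpperHalfPlane
open WeierstrassCurve

namespace Fermat.Agent.S52

open Fermat.Agent.S58 in
/-- the 3–5 switch, without the (unneeded) irreducibility hypothesis at `5` -/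
theorem s52_switch (W : WeierstrassCurve ℤ) (hΔ : W.Δ ≠ 0) (hW : W.IsSemistableModel) :
    ∃ W' : WeierstrassCurve ℤ, W'.Δ ≠ 0 ∧ W'.IsSemistableModel ∧ W'.ModRepIsIrreducible 3 ∧
      ∀ ℓ : ℕ, ℓ.Prime → W.IsGoodPrimeFor ℓ → W'.IsGoodPrimeFor ℓ → ℓ ≠ 5 →
        (5 : ℤ) ∣ (W'.apOfModel ℓ - W.apOfModel ℓ) := by
  classical
  have hrel : 1728 * W.Δ = W.c₄ ^ 3 - W.c₆ ^ 2 := W.c_relation
  have hne : ((W.c₄ : ℤ) : ℚ) ^ 3 ≠ ((W.c₆ : ℤ) : ℚ) ^ 2 := by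
    intro h
    apply hΔ
    have h1 : (W.c₄ ^ 3 - W.c₆ ^ 2 : ℤ) = 0 := by
      have : ((W.c₄ ^ 3 - W.c₆ ^ 2 : ℤ) : ℚ) = 0 := by push_cast; linarith
      exact_mod_cast this
    rw [← hrel] at h1
    omega
  obtain ⟨a0, b0, h4, h6⟩ := s52h_exists_base (W.c₄ : ℚ) (W.c₆ : ℚ) hne
  have h4' : s52bC4 a0 b0 = ((W.c₄ : ℤ) : AlgebraicClosure ℚ) := by rw [h4]; simp
  have h6' : s52bC6 a0 b0 = ((W.c₆ : ℤ) : AlgebraicClosure ℚ) := by rw [h6]; simp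
  -- `D(w₀)⁵ = Δ(W)`
  have hD5 : s52bD a0 b0 ^ 5 = ((W.Δ : ℤ) : AlgebraicClosure ℚ) := by
    have h1 := s52b_klein_rel a0 b0
    rw [h4', h6'] at h1
    have h2 : ((1728 * W.Δ : ℤ) : AlgebraicClosure ℚ) = ((W.c₄ ^ 3 - W.c₆ ^ 2 : ℤ) : AlgebraicClosure ℚ) := by
      rw [hrel]
    push_cast at h2
    have h3 : (1728 : AlgebraicClosure ℚ) * s52bD a0 b0 ^ 5 = 1728 * (W.Δ : AlgebraicClosure ℚ) := by
      rw [← h1, h2]
    exact mul_left_cancel₀ (by norm_num) h3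
  have hm0 : (10368 * (30 * W.Δ) : ℤ) ≠ 0 := by
    intro h
    apply hΔ
    omega
  obtain ⟨t, hmt, hsel⟩ := s52a_exists_t W hΔ a0 b0 h4' h6' (10368 * (30 * W.Δ)) hm0
  -- the model
  have hd4 : 10368 * (30 * W.Δ) ∣ s52bP4 W.c₄ W.c₆ t - W.c₄ :=
    dvd_trans hmt (s52bP4_dvd _ _ _)
  have hd6 : 10368 * (30 * W.Δ) ∣ s52bP6 W.c₄ W.c₆ t - W.c₆ :=
    dvd_trans hmt (s52bP6_dvd _ _ _)
  obtain ⟨W', hcong, hc4, hc6⟩ := s52b_exists_model_cong W (30 * W.Δ) _ _ hd4 hd6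
  have e4 : ((W'.c₄ : ℤ) : AlgebraicClosure ℚ) = s52bC4 (a0 + (t : AlgebraicClosure ℚ) * s52bDb a0 b0)
      (b0 - (t : AlgebraicClosure ℚ) * s52bDa a0 b0) := by
    rw [s52b_line4, h4', h6', hc4]
    exact s52bP4_map (Int.castRingHom (AlgebraicClosure ℚ)) W.c₄ W.c₆ t
  have e6 : ((W'.c₆ : ℤ) : AlgebraicClosure ℚ) = s52bC6 (a0 + (t : AlgebraicClosure ℚ) * s52bDb a0 b0)
      (b0 - (t : AlgebraicClosure ℚ) * s52bDa a0 b0) := by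
    rw [s52b_line6, h4', h6', hc6]
    exact s52bP6_map (Int.castRingHom (AlgebraicClosure ℚ)) W.c₄ W.c₆ t
  obtain ⟨hΔ', hirr⟩ := hsel W' e4 e6
  -- semistability
  have hD5' : s52bD (a0 + (t : AlgebraicClosure ℚ) * s52bDb a0 b0)
      (b0 - (t : AlgebraicClosure ℚ) * s52bDa a0 b0) ^ 5 = ((W'.Δ : ℤ) : AlgebraicClosure ℚ) := by
    have h1 := s52b_klein_rel (a0 + (t : AlgebraicClosure ℚ) * s52bDb a0 b0)
      (b0 - (t : AlgebraicClosure ℚ) * s52bDa a0 b0)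
    rw [← e4, ← e6] at h1
    have h2 : ((1728 * W'.Δ : ℤ) : AlgebraicClosure ℚ)
        = ((W'.c₄ ^ 3 - W'.c₆ ^ 2 : ℤ) : AlgebraicClosure ℚ) := by
      rw [W'.c_relation]
    push_cast at h2
    have h3 : (1728 : AlgebraicClosure ℚ) * s52bD (a0 + (t : AlgebraicClosure ℚ) * s52bDb a0 b0)
        (b0 - (t : AlgebraicClosure ℚ) * s52bDa a0 b0) ^ 5 = 1728 * (W'.Δ : AlgebraicClosure ℚ) := by
      rw [← h1, h2]
    exact mul_left_cancel₀ (by norm_num) h3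
  have hss : W'.IsSemistableModel := by
    refine hcong.isSemistableModel hW (fun p hp hpm hpΔ hpc => ?_)
    have hp2 : p ≠ 2 := by
      rintro rfl
      exact hpm ⟨15 * W.Δ, by push_cast; ring⟩
    have hp3 : p ≠ 3 := by
      rintro rfl
      exact hpm ⟨10 * W.Δ, by push_cast; ring⟩
    have hp5 : p ≠ 5 := by
      rintro rfl
      exact hpm ⟨6 * W.Δ, by push_cast; ring⟩
    have hpΔW : ¬ (p : ℤ) ∣ W.Δ := fun h => hpm (Dvd.dvd.mul_left h 30)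
    exact s52b_no_common_prime hp hp2 hp3 hp5 a0 b0 t W.c₄ W.Δ W'.c₄ W'.Δ h4' hD5 hpΔW e4.symm hD5'
      ⟨hpc, hpΔ⟩
  refine ⟨W', hΔ', hss, hirr, ?_⟩
  -- the congruence of the `a_ℓ`
  have h₀ : s52bShortVC (s58E W) • s58E W = s52sFibQ (s52Fam (W.c₄ : ℚ) (W.c₆ : ℚ)) 0 := by
    rw [s52b_short, s52h_fib, s52bP4_zero, s52bP6_zero, WeierstrassCurve.map_c₄,
      WeierstrassCurve.map_c₆, eq_intCast, eq_intCast]
  have h₁ : s52bShortVC (s58E W') • s58E W' = s52sFibQ (s52Fam (W.c₄ : ℚ) (W.c₆ : ℚ)) (t : ℚ) := by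
    rw [s52b_short, s52h_fib, WeierstrassCurve.map_c₄, WeierstrassCurve.map_c₆, eq_intCast,
      eq_intCast, hc4, hc6]
    congr 1
    · exact s52bP4_map (Int.castRingHom ℚ) W.c₄ W.c₆ t
    · exact s52bP6_map (Int.castRingHom ℚ) W.c₄ W.c₆ t
  exact s52s_final W W' (s52Fam (W.c₄ : ℚ) (W.c₆ : ℚ)) hΔ hΔ' 0 (t : ℚ) _ _ h₀ h₁
    (s52h_card _ _ hne)

theorem result (W : WeierstrassCurve ℤ) (hΔ : W.Δ ≠ 0) (hW : W.IsSemistableModel) (h5 : W.ModRepIsIrreducible 5) : ∃ W' : WeierstrassCurve ℤ, W'.Δ ≠ 0 ∧ W'.IsSemistableModel ∧ W'.ModRepIsIrreducible 3 ∧ ∀ ℓ : ℕ, ℓ.Prime → W.IsGoodPrimeFor ℓ → W'.IsGoodPrimeFor ℓ → ℓ ≠ 5 → (5 : ℤ) ∣ (W'.apOfModel ℓ - W.apOfModel ℓ) := by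
  exact s52_switch W hΔ hW

end Fermat.Agent.S52
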