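import Fermat.Statements.S55
import Fermat.Agent.Lib.CFT.Bridge.PTDataFinal
import Fermat.Agent.Lib.CFT.Bridge.PsiOrder
import Fermat.Agent.Lib.CFT.Bridge.C5e
import Fermat.Agent.Lib.CFT.Bridge.LocInjS
import Fermat.Agent.Lib.CFT.Bridge.Final

set_option autoImplicit false
set_option autoImplicit false
open CategoryTheory Module groupCohomology ExtCitation
open groupCohomology

namespace Fermat.Agent.S55

open Fermat.Agent.CFT Fermat.Agent.CFT.Bridge Fermat.Agent.CFT.Global in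
theorem result
    {p : ℕ} [Fact p.Prime] (hp2 : p ≠ 2) (S : Finset Nat.Primes) (hpS : pPrime p ∈ S)
    (M : Rep (ZMod p) (AlgebraicClosure ℚ ≃ₐ[ℚ] AlgebraicClosure ℚ))
    [FiniteDimensional (ZMod p) M]
    (hsm : ∀ m : M, ∃ F : IntermediateField ℚ (AlgebraicClosure ℚ), FiniteDimensional ℚ F ∧
      ∀ s ∈ F.fixingSubgroup, M.ρ s m = m)
    (hMur : ∀ q : Nat.Primes, q ∉ S → ∀ A : ValuationSubring (AlgebraicClosure ℚ),
      A.LiesOverPrime (q : ℕ) → ∀ g ∈ A.inertiaSubgroupIn ℚ, M.ρ g = 1) :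
    ∃ B : sha₁ S (M.dualTwist (cycloChar p)) →ₗ[ZMod p] sha₂ S M →ₗ[ZMod p] ZMod p,
      (∀ y, (∀ x, B y x = 0) → y = 0) ∧ (∀ x, (∀ y, B y x = 0) → x = 0) := by
  obtain ⟨L, hLS, hL⟩ := Bridge.exists_levelS_trivialOn M S hsm hMur
  exact Bridge.poitouTate_of_statement hp2 S hpS M hsm hMur
    (poitouTateStatement_of_arith p S hp2 hpS (orderInput p hp2 S hpS) (resInput p hp2 S hpS)
      (locInjInput p hp2 S hpS) M L hLS hL)

end Fermat.Agent.S55

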