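-- Statement S59 (row 53): the modularity lifting theorem at `p = 3, 5` with the level conditions.
-- The statement below is byte-identical to the frozen statement (Fermat/Statements/S59.lean);
-- the proof is `Fermat.Agent.MLT.mltt_S59` (Fermat/Agent/Lib/MLT/Top/ClosedTwo.lean).
import Fermat.Statements.S59
import Fermat.Agent.Lib.MLT.Top.ClosedTwo

set_option autoImplicit false
set_option autoImplicit false
open scoped WeierstrassCurve.Affine
open WeierstrassCurve

namespace Fermat.Agent.S59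

theorem result (p : ℕ) (hp : p = 3 ∨ p = 5)
    (W : WeierstrassCurve ℤ) (hΔ : W.Δ ≠ 0) (hW : W.IsSemistableModel) (hirr : W.ModRepIsIrreducible p)
    (M₀ : ℕ) [NeZero M₀] (hres₀ : W.IsResiduallyModularOfLevel p M₀)
    (hM₀ : ¬ p ^ 2 ∣ M₀)
    (hM₀3 : ∀ q : ℕ, q.Prime → q ≠ p → ¬ q ^ 3 ∣ M₀) :
    Mlc1IsModularModelOfExactConductorLevel W :=
  Fermat.Agent.MLT.mltt_S59 p hp W hΔ hW hirr M₀ hres₀ hM₀ hM₀3

end Fermat.Agent.S59
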